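import Fermat.Agent.GaussKuzmin.Transfer
import Mathlib.MeasureTheory.Measure.HasOuterApproxClosed

/-!
# Gauss's problem and mixing

Lebesgue measure has the density `log 2 (1 + u)` for the Gauss measure, and so, up to a factor
bounded above and below by absolute constants, has its restriction to a cylinder moved by the
iterate; Lipschitz cut-offs of closed sets give strong mixing.
-/

set_option autoImplicit false

noncomputable section

open MeasureTheory Filter Topology Set Real
open FA.PeriodicFractions FA.PointwiseErgodic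
open scoped ENNReal

namespace FA.GaussKuzmin

theorem isLip_lebesgue : IsLip (fun u => log 2 * (1 + clamp u)) (log 2) := fun u v => by
  rw [← mul_sub, add_sub_add_left_eq_sub, abs_mul, abs_of_pos (log_pos one_lt_two)]
  exact mul_le_mul_of_nonneg_left (abs_clamp_sub u v) (log_pos one_lt_two).le

theorem lebesgue_density_nonneg (u : ℝ) : 0 ≤ log 2 * (1 + clamp u) :=
  mul_nonneg (log_pos one_lt_two).le (by linarith [(clamp_mem u).1])

theorem setIntegral_lebesgue {S : Set ℝ} (hS : MeasurableSet S) :
    ∫ x in S, log 2 * (1 + clamp x) ∂gaussMeasure = volume.real (Ioo 0 1 ∩ S) := by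
  rw [integral_eq_lintegral_of_nonneg_ae (ae_of_all _ lebesgue_density_nonneg)
    isLip_lebesgue.continuous.aestronglyMeasurable,
    setLIntegral_gauss _ isLip_lebesgue.continuous.measurable.ennreal_ofReal hS, measureReal_def]
  congr 1
  rw [inter_comm, ← Measure.restrict_apply hS, ← lintegral_indicator_one hS]
  refine setLIntegral_congr_fun measurableSet_Ioo fun u hu => ?_
  by_cases hmem : u ∈ S
  · have hl := log_pos one_lt_two
    have := hu.1
    rw [indicator_of_mem hmem, indicator_of_mem hmem, clamp_of_mem (Ioo_subset_Icc_self hu),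
      ← ENNReal.ofReal_mul (by unfold gaussDensity; positivity), gaussDensity,
      inv_mul_cancel₀ (by positivity), ENNReal.ofReal_one]
    rfl
  · rw [indicator_of_notMem hmem, indicator_of_notMem hmem, mul_zero]

/-- **The theorem of Gauss, Kuzmin and Lévy.** -/
theorem abs_volume_iterate_sub_le {A : Set ℝ} (hA : MeasurableSet A) (n : ℕ) :
    |volume.real (Ioo 0 1 ∩ gaussMap^[n] ⁻¹' A) - gaussMeasure.real A| ≤
      (11 / 12) ^ n * log 2 * gaussMeasure.real A := by
  have h := abs_setIntegral_sub_le isLip_lebesgue lebesgue_density_nonneg hA n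
  have h1 : ∫ x, log 2 * (1 + clamp x) ∂gaussMeasure = 1 := by
    rw [← setIntegral_univ, setIntegral_lebesgue MeasurableSet.univ, inter_univ,
      Real.volume_real_Ioo_of_le zero_le_one, sub_zero]
  rwa [setIntegral_lebesgue (measurable_gaussMap.iterate n hA), h1, mul_one] at h

theorem measurableSet_gaussCylinder (x : ℝ) (m : ℕ) : MeasurableSet (gaussCylinder x m) := by
  have e : gaussCylinder x m = wordCylinder ⟨m, fun j => digit x j⟩ := by
    ext y
    exact and_congr_right fun _ => ⟨fun h j => h j (Nat.lt_succ_iff.1 j.2),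
      fun h j hj => h ⟨j, Nat.lt_succ_of_le hj⟩⟩
  rw [e]
  exact measurableSet_wordCylinder _

/-- The measure of a preimage inside a cylinder. -/
theorem volume_cylinder_preimage {x : ℝ} (hx : x ∈ unitIrr) (m : ℕ) {S : Set ℝ}
    (hS : MeasurableSet S) :
    volume (gaussCylinder x m ∩ gaussMap^[m] ⁻¹' S) = ∫⁻ t in S ∩ unitIrr,
      ENNReal.ofReal (1 / (((contin x (m + 1)).2.2.1 : ℝ) +
        (contin x (m + 1)).2.2.2 * t) ^ 2) := by
  have himg : branch x m '' (S ∩ unitIrr) = gaussCylinder x m ∩ gaussMap^[m] ⁻¹' S := by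
    ext y
    constructor
    · rintro ⟨t, ⟨htS, ht⟩, rfl⟩
      obtain ⟨h1, h2⟩ := branch_mem hx m ht
      exact ⟨h1, (h2.symm ▸ htS : gaussMap^[m] (branch x m t) ∈ S)⟩
    · rintro ⟨hy, hyS⟩
      exact ⟨gaussMap^[m] y, ⟨hyS, iterate_mem_unitIrr hy.1 m⟩, branch_iterate hy⟩
  have hd : ∀ t ∈ unitIrr, ∃ d, HasDerivAt (branch x m) d t ∧ |d| =
      1 / (((contin x (m + 1)).2.2.1 : ℝ) + (contin x (m + 1)).2.2.2 * t) ^ 2 :=
    fun t ht => hasDerivAt_branch hx.2 m ht.1.1.le
  choose! d hd1 hd2 using hd
  rw [← himg, ← setLIntegral_one, lintegral_image_eq_lintegral_abs_deriv_mul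
    (hS.inter measurableSet_unitIrr) (fun t ht => (hd1 t ht.2).hasDerivWithinAt)
    (fun s hs t ht h => by
      rw [← (branch_mem hx m hs.2).2, h, (branch_mem hx m ht.2).2]) fun _ => 1]
  exact setLIntegral_congr_fun (hS.inter measurableSet_unitIrr) fun t ht => by
    rw [mul_one, hd2 t ht.2]

/-- The density of the image of a cylinder. -/
def cylDensity (q q' u : ℝ) : ℝ := log 2 * (1 + clamp u) / (q + q' * clamp u) ^ 2

theorem isLip_cylDensity {q q' : ℝ} (hq : 0 < q) (h1 : 0 ≤ q') (h2 : q' ≤ q) :
    IsLip (cylDensity q q') (9 * log 2 / q ^ 2) := fun u v => by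
  have hl := log_pos one_lt_two
  have hu := clamp_mem u
  have hv := clamp_mem v
  set s := clamp u
  set t := clamp v
  have hs : q ≤ q + q' * s := le_add_of_nonneg_right (mul_nonneg h1 hu.1)
  have ht : q ≤ q + q' * t := le_add_of_nonneg_right (mul_nonneg h1 hv.1)
  have e : cylDensity q q' u - cylDensity q q' v = log 2 * ((s - t) / (q + q' * s) ^ 2 +
      (1 + t) * (q' * (t - s) * ((q + q' * s) + (q + q' * t))) /
        ((q + q' * s) ^ 2 * (q + q' * t) ^ 2)) := by
    have e0 : ∀ a b : ℝ, q + q' * a ≠ 0 → q + q' * b ≠ 0 →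
        log 2 * (1 + a) / (q + q' * a) ^ 2 - log 2 * (1 + b) / (q + q' * b) ^ 2 = log 2 *
          ((a - b) / (q + q' * a) ^ 2 + (1 + b) * (q' * (b - a) * ((q + q' * a) + (q + q' * b))) /
            ((q + q' * a) ^ 2 * (q + q' * b) ^ 2)) := fun a b ha hb => by
      rw [show q' * (b - a) = (q + q' * b) - (q + q' * a) by ring]
      generalize q + q' * a = P, q + q' * b = Q at ha hb ⊢
      field_simp
      ring
    exact e0 s t (by linarith) (by linarith)
  rw [e, abs_mul, abs_of_pos hl, show 9 * log 2 / q ^ 2 * |u - v| =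
    log 2 * (|u - v| / q ^ 2 + 8 * (|u - v| / q ^ 2)) by ring]
  refine mul_le_mul_of_nonneg_left ((abs_add_le _ _).trans (add_le_add ?_ ?_)) hl.le
  · rw [abs_div, abs_of_pos (show 0 < (q + q' * s) ^ 2 by nlinarith)]
    exact div_le_div₀ (abs_nonneg _) (abs_clamp_sub u v) (by positivity)
      (pow_le_pow_left₀ hq.le hs 2)
  · have hq4 : q ^ 4 ≤ (q + q' * s) ^ 2 * (q + q' * t) ^ 2 := by
      rw [show q ^ 4 = q ^ 2 * q ^ 2 by ring]
      exact mul_le_mul (pow_le_pow_left₀ hq.le hs 2) (pow_le_pow_left₀ hq.le ht 2) (by positivity)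
        (by positivity)
    have hnum : |(1 + t) * (q' * (t - s) * ((q + q' * s) + (q + q' * t)))| ≤
        8 * q ^ 2 * |u - v| := by
      rw [abs_mul, abs_mul, abs_mul, abs_of_nonneg (by linarith [hv.1] : 0 ≤ 1 + t),
        abs_of_nonneg h1, abs_of_nonneg (by linarith : 0 ≤ (q + q' * s) + (q + q' * t)),
        abs_sub_comm t s]
      calc (1 + t) * (q' * |s - t| * ((q + q' * s) + (q + q' * t)))
          ≤ 2 * (q * |u - v| * (4 * q)) := by
            refine mul_le_mul (by linarith [hv.2]) (mul_le_mul (mul_le_mul h2 (abs_clamp_sub u v)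
              (abs_nonneg _) hq.le) ?_ (by linarith) (by positivity))
              (mul_nonneg (mul_nonneg h1 (abs_nonneg _)) (by linarith)) zero_le_two
            nlinarith [hu.2, hv.2]
        _ = 8 * q ^ 2 * |u - v| := by ring
    rw [abs_div, abs_of_pos ((pow_pos hq 4).trans_le hq4)]
    refine (div_le_div₀ (by positivity) hnum (by positivity) hq4).trans_eq ?_
    field_simp

theorem cylDensity_nonneg (q q' u : ℝ) : 0 ≤ cylDensity q q' u :=
  div_nonneg (lebesgue_density_nonneg u) (sq_nonneg _)

/-- **Exponential mixing with the cylinders.** -/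
theorem abs_cylinder_sub_le {x : ℝ} (hx : x ∈ unitIrr) (m : ℕ) {A : Set ℝ}
    (hA : MeasurableSet A) (n : ℕ) :
    |volume.real (gaussCylinder x m ∩ gaussMap^[n + m] ⁻¹' A) -
      gaussMeasure.real A * volume.real (gaussCylinder x m)| ≤
        36 * log 2 * (11 / 12) ^ n * gaussMeasure.real A *
          volume.real (gaussCylinder x m) := by
  obtain ⟨b0, b1, b2⟩ := den_bounds hx.2 m
  set q : ℝ := ((contin x (m + 1)).2.2.1 : ℝ) with hq
  set q' : ℝ := ((contin x (m + 1)).2.2.2 : ℝ) with hq'
  have h0 : 0 < q := by rw [hq]; exact_mod_cast b0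
  have h1 : 0 ≤ q' := by rw [hq']; exact_mod_cast b1
  have h2 : q' ≤ q := by rw [hq, hq']; exact_mod_cast b2
  have hl := isLip_cylDensity h0 h1 h2
  have key : ∀ {S : Set ℝ}, MeasurableSet S → ∫ u in S, cylDensity q q' u ∂gaussMeasure =
      volume.real (gaussCylinder x m ∩ gaussMap^[m] ⁻¹' S) := fun {S} hS => by
    rw [integral_eq_lintegral_of_nonneg_ae (ae_of_all _ (cylDensity_nonneg q q'))
      hl.continuous.aestronglyMeasurable,
      setLIntegral_gauss _ hl.continuous.measurable.ennreal_ofReal hS, measureReal_def,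
      volume_cylinder_preimage hx m hS, ← hq, ← hq']
    congr 1
    rw [setLIntegral_congr (EventuallyEq.inter EventuallyEq.rfl unitIrr_ae :
        (S ∩ unitIrr : Set ℝ) =ᵐ[volume] (S ∩ Ioo 0 1 : Set ℝ)),
      ← Measure.restrict_restrict hS, ← lintegral_indicator hS]
    refine setLIntegral_congr_fun measurableSet_Ioo fun u hu => ?_
    by_cases hmem : u ∈ S
    · have hl2 := log_pos one_lt_two
      have := hu.1
      rw [indicator_of_mem hmem, indicator_of_mem hmem, cylDensity,
        clamp_of_mem (Ioo_subset_Icc_self hu),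
        ← ENNReal.ofReal_mul (by unfold gaussDensity; positivity), gaussDensity]
      congr 1
      field_simp
    · rw [indicator_of_notMem hmem, indicator_of_notMem hmem, mul_zero]
  have htot : ∫ u, cylDensity q q' u ∂gaussMeasure = volume.real (gaussCylinder x m) := by
    rw [← setIntegral_univ, key MeasurableSet.univ, preimage_univ, inter_univ]
  have hlow : 1 / (4 * q ^ 2) ≤ volume.real (gaussCylinder x m) := by
    have e : 1 / (4 * q ^ 2) = ∫ u, log 2 * (1 + clamp u) / (4 * q ^ 2) ∂gaussMeasure := by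
      rw [integral_div, ← setIntegral_univ, setIntegral_lebesgue MeasurableSet.univ, inter_univ,
        Real.volume_real_Ioo_of_le zero_le_one, sub_zero]
    rw [← htot, e]
    refine integral_mono ((integrable_of_isLip isLip_lebesgue).div_const _)
      (integrable_of_isLip hl) fun u => div_le_div_of_nonneg_left (lebesgue_density_nonneg u) ?_ ?_
    · nlinarith [mul_nonneg h1 (clamp_mem u).1]
    · nlinarith [mul_nonneg h1 (clamp_mem u).1, mul_le_mul h2 (clamp_mem u).2 (clamp_mem u).1 h0.le]
  have h := abs_setIntegral_sub_le hl (cylDensity_nonneg q q') hA n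
  rw [htot, key (measurable_gaussMap.iterate n hA), ← preimage_comp, ← Function.iterate_add] at h
  refine h.trans ?_
  have hM : 9 * log 2 / q ^ 2 ≤ 36 * log 2 * volume.real (gaussCylinder x m) := by
    refine le_of_eq_of_le ?_ (mul_le_mul_of_nonneg_left hlow (by positivity))
    ring
  calc (11 / 12) ^ n * (9 * log 2 / q ^ 2) * gaussMeasure.real A
      ≤ (11 / 12) ^ n * (36 * log 2 * volume.real (gaussCylinder x m)) * gaussMeasure.real A := by
        gcongr
    _ = _ := by ring

/-- **The Gauss map is strongly mixing.** -/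
theorem tendsto_gauss_inter {A B : Set ℝ} (hA : MeasurableSet A) (hB : MeasurableSet B) :
    Tendsto (fun n : ℕ => gaussMeasure.real (A ∩ gaussMap^[n] ⁻¹' B)) atTop
      (𝓝 (gaussMeasure.real A * gaussMeasure.real B)) := by
  rw [Metric.tendsto_atTop]
  intro ε hε
  obtain ⟨F, hFA, hFc, hF⟩ := hA.exists_isClosed_sdiff_lt (measure_ne_top gaussMeasure A)
    (ε := ENNReal.ofReal (ε / 4)) (ENNReal.ofReal_pos.2 (by positivity)).ne'
  have hF' : gaussMeasure.real A - gaussMeasure.real F < ε / 4 := by
    rw [← measureReal_sdiff hFA hFc.measurableSet, measureReal_def]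
    exact (ENNReal.toReal_lt_toReal (measure_ne_top _ _) ENNReal.ofReal_ne_top).2 hF |>.trans_eq
      (ENNReal.toReal_ofReal (by positivity))
  have hpos : ∀ j : ℕ, (0 : ℝ) < 1 / ((j : ℝ) + 1) := fun j => by positivity
  obtain ⟨j, hj⟩ := ((tendsto_integral_thickenedIndicator_of_isClosed gaussMeasure hFc hpos
    tendsto_one_div_add_atTop_nhds_zero_nat).eventually_lt_const
      (show gaussMeasure.real F < gaussMeasure.real F + ε / 4 by linarith)).exists
  set h : ℝ → ℝ := fun u => (thickenedIndicator (hpos j) F u : ℝ) with hh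
  have hlip : IsLip h ((1 / ((j : ℝ) + 1))⁻¹) := fun u v => by
    have := (lipschitzWith_thickenedIndicator (hpos j) F).dist_le_mul u v
    rwa [NNReal.dist_eq, Real.dist_eq, NNReal.coe_inv, Real.coe_toNNReal _ (hpos j).le] at this
  have hge : ∀ u, F.indicator 1 u ≤ h u := fun u => by
    by_cases hu : u ∈ F
    · simp only [hh, indicator_of_mem hu, Pi.one_apply]
      rw [thickenedIndicator_one (hpos j) F hu, NNReal.coe_one]
    · simp [hh, hu]
  have h1 : ∫ u, h u ∂gaussMeasure < gaussMeasure.real F + ε / 4 := hj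
  obtain ⟨N, hN⟩ := exists_pow_lt_of_lt_one
    (show 0 < ε / 4 / (1 / ((j : ℝ) + 1))⁻¹ by positivity) (show (11 / 12 : ℝ) < 1 by norm_num)
  refine ⟨N, fun n hn => ?_⟩
  set S := gaussMap^[n] ⁻¹' B with hS
  have hSm : MeasurableSet S := measurable_gaussMap.iterate n hB
  have hdec := abs_setIntegral_sub_le hlip (fun u => NNReal.coe_nonneg _) hB n
  have hsmall : (11 / 12 : ℝ) ^ n * (1 / ((j : ℝ) + 1))⁻¹ * gaussMeasure.real B < ε / 4 := by
    refine lt_of_le_of_lt (mul_le_of_le_one_right (by positivity) measureReal_le_one) ?_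
    rw [← lt_div_iff₀ (by positivity)]
    exact (pow_le_pow_of_le_one (by norm_num) (by norm_num) hn).trans_lt hN
  have hIF : Integrable (F.indicator (1 : ℝ → ℝ)) gaussMeasure :=
    (integrable_const 1).indicator hFc.measurableSet
  have hIh := integrable_of_isLip hlip
  have hlo : gaussMeasure.real (F ∩ S) ≤ ∫ u in S, h u ∂gaussMeasure := by
    rw [← measureReal_restrict_apply hFc.measurableSet, ← integral_indicator_one hFc.measurableSet]
    exact setIntegral_mono hIF.integrableOn hIh.integrableOn hge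
  have hhi : (∫ u in S, h u ∂gaussMeasure) - gaussMeasure.real (F ∩ S) ≤
      (∫ u, h u ∂gaussMeasure) - gaussMeasure.real F := by
    rw [← measureReal_restrict_apply hFc.measurableSet, ← integral_indicator_one hFc.measurableSet,
      ← integral_indicator_one (μ := gaussMeasure) hFc.measurableSet,
      ← integral_sub hIh.integrableOn hIF.integrableOn, ← integral_sub hIh hIF]
    exact setIntegral_le_integral (hIh.sub hIF) (ae_of_all _ fun u => sub_nonneg.2 (hge u))
  have hAF : gaussMeasure.real (A ∩ S) - gaussMeasure.real (F ∩ S) ≤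
      gaussMeasure.real A - gaussMeasure.real F := by
    rw [← measureReal_sdiff (inter_subset_inter_left _ hFA) (hFc.measurableSet.inter hSm),
      ← measureReal_sdiff hFA hFc.measurableSet]
    exact measureReal_mono fun u hu => ⟨hu.1.1, fun h' => hu.2 ⟨h', hu.1.2⟩⟩
  have hmono : gaussMeasure.real (F ∩ S) ≤ gaussMeasure.real (A ∩ S) :=
    measureReal_mono (inter_subset_inter_left _ hFA)
  have hAle := measureReal_mono (μ := gaussMeasure) hFA
  have hb0 := measureReal_nonneg (μ := gaussMeasure) (s := B)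
  have hb1 : gaussMeasure.real B ≤ 1 := measureReal_le_one
  have hint : gaussMeasure.real F ≤ ∫ u, h u ∂gaussMeasure := by
    rw [← integral_indicator_one hFc.measurableSet]
    exact integral_mono hIF hIh hge
  rw [abs_le] at hdec
  rw [Real.dist_eq, abs_lt]
  constructor
  · nlinarith [mul_le_mul_of_nonneg_left hint hb0]
  · nlinarith [mul_le_mul_of_nonneg_left hAle hb0, mul_le_mul_of_nonneg_left hint hb0]

end FA.GaussKuzmin
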