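import Fermat.Agent.DoeblinLenstra.Measure

/-!
# The transfer operator of the Gauss map

`g ↦ ∑ p_k(x) g (1 / (k + 1 + x))`, with `p_k(x) = (1 + x) / ((k + 1 + x) (k + 2 + x))`, is dual to
composition with the Gauss map for the Gauss measure and multiplies every Lipschitz constant on
`[0, 1]` by at most `11 / 12` (summation by parts; no derivatives are needed). So the integral of
a Lipschitz function over `T ^ (-n) A` tends geometrically to the product of the integrals.
-/

set_option autoImplicit false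

noncomputable section

open MeasureTheory Filter Topology Set Real
open FA.PeriodicFractions FA.PointwiseErgodic
open scoped ENNReal

namespace FA.GaussKuzmin

/-- The weight of the branch of the digit `k + 1`. -/
def branchWeight (k : ℕ) (x : ℝ) : ℝ := (1 + x) / (((k : ℝ) + 1 + x) * ((k : ℝ) + 2 + x))

/-- The nearest point of `[0, 1]`. -/
def clamp (x : ℝ) : ℝ := max 0 (min x 1)

theorem clamp_mem (x : ℝ) : clamp x ∈ Icc (0 : ℝ) 1 :=
  ⟨le_max_left _ _, max_le zero_le_one (min_le_right _ _)⟩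

theorem clamp_of_mem {x : ℝ} (hx : x ∈ Icc (0 : ℝ) 1) : clamp x = x := by
  rw [clamp, min_eq_left hx.2, max_eq_right hx.1]

theorem abs_clamp_sub (x y : ℝ) : |clamp x - clamp y| ≤ |x - y| := by
  refine (abs_max_sub_max_le_max _ _ _ _).trans (max_le (by simp) ?_)
  exact (abs_min_sub_min_le_max _ _ _ _).trans (max_le le_rfl (by simp))

/-- The transfer operator. -/
def transfer (g : ℝ → ℝ) (x : ℝ) : ℝ :=
  ∑' k : ℕ, branchWeight k (clamp x) * g (1 / ((k : ℝ) + 1 + clamp x))

/-- A Lipschitz bound. -/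
def IsLip (g : ℝ → ℝ) (M : ℝ) : Prop := ∀ u v, |g u - g v| ≤ M * |u - v|

theorem IsLip.nonneg {g : ℝ → ℝ} {M : ℝ} (hg : IsLip g M) : 0 ≤ M := by
  have := (abs_nonneg _).trans (hg 1 0)
  norm_num at this
  exact this

theorem IsLip.continuous {g : ℝ → ℝ} {M : ℝ} (hg : IsLip g M) : Continuous g := by
  refine (LipschitzWith.of_dist_le_mul (K := M.toNNReal) fun u v => ?_).continuous
  rw [Real.dist_eq, Real.dist_eq, Real.coe_toNNReal _ hg.nonneg]
  exact hg u v

theorem IsLip.bound {g : ℝ → ℝ} {M : ℝ} (hg : IsLip g M) {u : ℝ} (hu : u ∈ Icc (0 : ℝ) 1) :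
    |g u| ≤ |g 0| + M := by
  have h : M * |u - 0| ≤ M := by
    rw [sub_zero, abs_of_nonneg hu.1]
    exact mul_le_of_le_one_right hg.nonneg hu.2
  linarith [abs_sub_abs_le_abs_sub (g u) (g 0), hg u 0]

theorem branchWeight_nonneg (k : ℕ) {x : ℝ} (hx : 0 ≤ x) : 0 ≤ branchWeight k x := by
  unfold branchWeight
  positivity

theorem sum_branchWeight {x : ℝ} (hx : 0 ≤ x) (N : ℕ) :
    ∑ k ∈ Finset.range N, branchWeight k x = (N : ℝ) / ((N : ℝ) + 1 + x) := by
  induction N with
  | zero => simp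
  | succ N ih =>
    rw [Finset.sum_range_succ, ih, branchWeight]
    push_cast
    field_simp
    ring

theorem hasSum_branchWeight {x : ℝ} (hx : 0 ≤ x) : HasSum (fun k => branchWeight k x) 1 := by
  refine (hasSum_iff_tendsto_nat_of_nonneg (fun k => branchWeight_nonneg k hx) 1).2 ?_
  simp only [sum_branchWeight hx]
  have h : Tendsto (fun N : ℕ => 1 - (1 + x) / ((N : ℝ) + (1 + x))) atTop (𝓝 (1 - 0)) :=
    tendsto_const_nhds.sub (tendsto_const_nhds.div_atTop
      (tendsto_atTop_add_const_right _ _ tendsto_natCast_atTop_atTop))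
  rw [sub_zero] at h
  refine h.congr fun N => ?_
  rw [one_sub_div (by positivity), add_sub_cancel_right, add_assoc]

theorem branch_mem_Icc (k : ℕ) {x : ℝ} (hx : 0 ≤ x) :
    1 / ((k : ℝ) + 1 + x) ∈ Icc (0 : ℝ) 1 :=
  ⟨by positivity, (div_le_one (by positivity)).2 (by linarith [Nat.cast_nonneg (α := ℝ) k])⟩

theorem summable_transfer {g : ℝ → ℝ} {M : ℝ} (hg : IsLip g M) {x : ℝ} (hx : 0 ≤ x) :
    Summable fun k : ℕ => branchWeight k x * g (1 / ((k : ℝ) + 1 + x)) := by
  refine Summable.of_norm_bounded ((hasSum_branchWeight hx).summable.mul_right (|g 0| + M))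
    fun k => ?_
  rw [Real.norm_eq_abs, abs_mul, abs_of_nonneg (branchWeight_nonneg k hx)]
  exact mul_le_mul_of_nonneg_left (hg.bound (branch_mem_Icc k hx)) (branchWeight_nonneg k hx)

theorem sum_telescope_le (N : ℕ) :
    ∑ k ∈ Finset.range N, 1 / (((k : ℝ) + 1) * ((k : ℝ) + 2) * ((k : ℝ) + 3)) ≤ 1 / 4 := by
  have h : ∑ k ∈ Finset.range N, 1 / (((k : ℝ) + 1) * ((k : ℝ) + 2) * ((k : ℝ) + 3)) =
      1 / 4 - 1 / (2 * ((N : ℝ) + 1) * ((N : ℝ) + 2)) := by
    induction N with
    | zero => norm_num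
    | succ N ih =>
      rw [Finset.sum_range_succ, ih]
      push_cast
      field_simp
      ring
  rw [h]
  exact sub_le_self _ (by positivity)

theorem abel_sum (a D : ℕ → ℝ) (hD : D 0 = 0) (N : ℕ) :
    ∑ k ∈ Finset.range N, (D (k + 1) - D k) * a k =
      D N * a N + ∑ k ∈ Finset.range N, D (k + 1) * (a k - a (k + 1)) := by
  induction N with
  | zero => simp [hD]
  | succ N ih => rw [Finset.sum_range_succ, Finset.sum_range_succ, ih]; ring

/-- **The contraction.** -/
theorem transfer_sub_le {g : ℝ → ℝ} {M : ℝ} (hg : IsLip g M) {x y : ℝ}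
    (hx : x ∈ Icc (0 : ℝ) 1) (hy : y ∈ Icc (0 : ℝ) 1) :
    |(∑' k : ℕ, branchWeight k x * g (1 / ((k : ℝ) + 1 + x))) -
      ∑' k : ℕ, branchWeight k y * g (1 / ((k : ℝ) + 1 + y))| ≤ 11 / 12 * M * |x - y| := by
  have hM := hg.nonneg
  have hx0 := hx.1
  have hy0 := hy.1
  set a : ℕ → ℝ := fun k => g (1 / ((k : ℝ) + 1 + x)) with ha
  set b : ℕ → ℝ := fun k => g (1 / ((k : ℝ) + 1 + y)) with hb
  set D : ℕ → ℝ := fun j => (j : ℝ) / ((j : ℝ) + 1 + x) - (j : ℝ) / ((j : ℝ) + 1 + y) with hD
  have hlim := (summable_transfer hg hx0).hasSum.tendsto_sum_nat.sub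
    (summable_transfer hg hy0).hasSum.tendsto_sum_nat
  have hDlim : Tendsto (fun N => (|g 0| + M) * |D N|) atTop (𝓝 0) := by
    have h := ((hasSum_branchWeight hx0).tendsto_sum_nat.sub
      (hasSum_branchWeight hy0).tendsto_sum_nat).abs.const_mul (|g 0| + M)
    simp only [sub_self, abs_zero, mul_zero, sum_branchWeight hx0, sum_branchWeight hy0] at h
    exact h
  refine le_of_tendsto_of_tendsto' hlim.abs
    (by simpa using hDlim.const_add (11 / 12 * M * |x - y|)) fun N => ?_
  have hsplit : ∑ k ∈ Finset.range N, branchWeight k x * a k -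
      ∑ k ∈ Finset.range N, branchWeight k y * b k =
      D N * a N + ∑ k ∈ Finset.range N, D (k + 1) * (a k - a (k + 1)) +
        ∑ k ∈ Finset.range N, branchWeight k y * (a k - b k) := by
    rw [← abel_sum a D (by simp [hD]), ← Finset.sum_sub_distrib, ← Finset.sum_add_distrib]
    refine Finset.sum_congr rfl fun k _ => ?_
    simp only [hD, branchWeight]
    push_cast
    field_simp
    ring
  rw [hsplit]
  have h1 : |D N * a N| ≤ (|g 0| + M) * |D N| := by
    rw [abs_mul, mul_comm]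
    exact mul_le_mul_of_nonneg_right (hg.bound (branch_mem_Icc N hx0)) (abs_nonneg _)
  have h2 : |∑ k ∈ Finset.range N, D (k + 1) * (a k - a (k + 1))| ≤ 1 / 4 * (M * |x - y|) := by
    refine (Finset.abs_sum_le_sum_abs _ _).trans (le_trans ?_
      (mul_le_mul_of_nonneg_right (sum_telescope_le N) (by positivity)))
    rw [Finset.sum_mul]
    refine Finset.sum_le_sum fun k _ => ?_
    have e1 : |D (k + 1)| = ((k : ℝ) + 1) * |x - y| / (((k : ℝ) + 2 + x) * ((k : ℝ) + 2 + y)) := by
      simp only [hD]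
      push_cast
      rw [div_sub_div _ _ (by positivity) (by positivity), abs_div,
        abs_of_pos (show (0 : ℝ) < ((k : ℝ) + 1 + 1 + x) * ((k : ℝ) + 1 + 1 + y) by positivity),
        show ((k : ℝ) + 1) * ((k : ℝ) + 1 + 1 + y) - ((k : ℝ) + 1 + 1 + x) * ((k : ℝ) + 1) =
          ((k : ℝ) + 1) * (y - x) by ring, abs_mul, abs_sub_comm y x,
        abs_of_pos (show (0 : ℝ) < (k : ℝ) + 1 by positivity)]
      ring
    have e2 : |a k - a (k + 1)| ≤ M / (((k : ℝ) + 1 + x) * ((k : ℝ) + 2 + x)) := by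
      refine (hg _ _).trans_eq ?_
      push_cast
      rw [div_sub_div _ _ (by positivity) (by positivity), abs_div,
        abs_of_pos (show (0 : ℝ) < ((k : ℝ) + 1 + x) * ((k : ℝ) + 1 + 1 + x) by positivity),
        show 1 * ((k : ℝ) + 1 + 1 + x) - ((k : ℝ) + 1 + x) * 1 = 1 by ring, abs_one, mul_one_div]
      ring
    rw [abs_mul, e1]
    refine (mul_le_mul_of_nonneg_left e2 (by positivity)).trans ?_
    rw [div_mul_div_comm, div_mul_eq_mul_div, one_mul,
      div_le_div_iff₀ (by positivity) (by positivity)]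
    have hk := Nat.cast_nonneg (α := ℝ) k
    have hden : ((k : ℝ) + 1) * (((k : ℝ) + 1) * ((k : ℝ) + 2) * ((k : ℝ) + 3)) ≤
        ((k : ℝ) + 2 + x) * ((k : ℝ) + 2 + y) * (((k : ℝ) + 1 + x) * ((k : ℝ) + 2 + x)) := by
      calc ((k : ℝ) + 1) * (((k : ℝ) + 1) * ((k : ℝ) + 2) * ((k : ℝ) + 3))
          = (((k : ℝ) + 1) * ((k : ℝ) + 3)) * (((k : ℝ) + 1) * ((k : ℝ) + 2)) := by ring
        _ ≤ ((k : ℝ) + 2 + x) * ((k : ℝ) + 2 + y) * (((k : ℝ) + 1 + x) * ((k : ℝ) + 2 + x)) := by
            refine mul_le_mul ?_ ?_ (by positivity) (by positivity)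
            · nlinarith
            · nlinarith
    have := mul_le_mul_of_nonneg_left hden (mul_nonneg hM (abs_nonneg (x - y)))
    linarith
  have h3 : |∑ k ∈ Finset.range N, branchWeight k y * (a k - b k)| ≤ 2 / 3 * (M * |x - y|) := by
    have hterm : ∀ k : ℕ, |branchWeight k y * (a k - b k)| ≤
        (1 + y) / ((((k : ℝ) + 1 + y) * ((k : ℝ) + 2 + y)) *
            (((k : ℝ) + 1 + x) * ((k : ℝ) + 1 + y)))
          * (M * |x - y|) := fun k => by
      rw [abs_mul, abs_of_nonneg (branchWeight_nonneg k hy0)]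
      refine (mul_le_mul_of_nonneg_left (hg _ _) (branchWeight_nonneg k hy0)).trans_eq ?_
      rw [div_sub_div _ _ (by positivity) (by positivity), abs_div,
        abs_of_pos (show (0 : ℝ) < ((k : ℝ) + 1 + x) * ((k : ℝ) + 1 + y) by positivity),
        show 1 * ((k : ℝ) + 1 + y) - ((k : ℝ) + 1 + x) * 1 = y - x by ring, abs_sub_comm y x,
        branchWeight]
      field_simp
    refine (Finset.abs_sum_le_sum_abs _ _).trans ((Finset.sum_le_sum fun k _ => hterm k).trans ?_)
    rw [← Finset.sum_mul]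
    refine mul_le_mul_of_nonneg_right ?_ (by positivity)
    rcases N with _ | N
    · norm_num
    rw [Finset.sum_range_succ', show (2 : ℝ) / 3 = 2 / 3 * (1 / 4) + 1 / 2 by norm_num]
    refine add_le_add ((Finset.sum_le_sum fun k _ => ?_).trans
      ((Finset.mul_sum _ _ _).symm.trans_le
        (mul_le_mul_of_nonneg_left (sum_telescope_le N) (by norm_num)))) ?_
    · push_cast
      rw [mul_one_div, div_div, div_le_div_iff₀ (by positivity) (by positivity)]
      have hk := Nat.cast_nonneg (α := ℝ) k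
      calc (1 + y) * (3 * (((k : ℝ) + 1) * ((k : ℝ) + 2) * ((k : ℝ) + 3)))
          ≤ 2 * ((((k : ℝ) + 2) * ((k : ℝ) + 2) * ((k : ℝ) + 2)) * ((k : ℝ) + 3)) := by
            refine mul_le_mul (by linarith [hy.2]) ?_ (by positivity) zero_le_two
            nlinarith [mul_nonneg (add_nonneg hk zero_le_two) (add_nonneg hk zero_le_three),
              mul_nonneg (mul_nonneg (add_nonneg hk zero_le_two) (add_nonneg hk zero_le_three))
                (show (0 : ℝ) ≤ (k : ℝ) * k + k + 1 by positivity)]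
        _ ≤ 2 * ((((k : ℝ) + 1 + 1 + y) * ((k : ℝ) + 1 + 2 + y)) *
              (((k : ℝ) + 1 + 1 + x) * ((k : ℝ) + 1 + 1 + y))) := by
            refine mul_le_mul_of_nonneg_left ?_ zero_le_two
            rw [show ((k : ℝ) + 2) * ((k : ℝ) + 2) * ((k : ℝ) + 2) * ((k : ℝ) + 3) =
              (((k : ℝ) + 2) * ((k : ℝ) + 3)) * (((k : ℝ) + 2) * ((k : ℝ) + 2)) by ring]
            refine mul_le_mul (mul_le_mul ?_ ?_ ?_ ?_) (mul_le_mul ?_ ?_ ?_ ?_) ?_ ?_ <;>
              first | positivity | linarith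
    · push_cast
      rw [div_le_div_iff₀ (by positivity) two_pos]
      nlinarith [mul_nonneg hx0 (mul_nonneg hy0 hy0)]
  have hadd := (abs_add_le (D N * a N + ∑ k ∈ Finset.range N, D (k + 1) * (a k - a (k + 1)))
    (∑ k ∈ Finset.range N, branchWeight k y * (a k - b k)))
  have hadd' := abs_add_le (D N * a N) (∑ k ∈ Finset.range N, D (k + 1) * (a k - a (k + 1)))
  linarith

theorem isLip_transfer {g : ℝ → ℝ} {M : ℝ} (hg : IsLip g M) :
    IsLip (transfer g) (11 / 12 * M) := fun u v =>
  (transfer_sub_le hg (clamp_mem u) (clamp_mem v)).trans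
    (mul_le_mul_of_nonneg_left (abs_clamp_sub u v) (by have := hg.nonneg; positivity))

theorem isLip_iterate {g : ℝ → ℝ} {M : ℝ} (hg : IsLip g M) (n : ℕ) :
    IsLip (transfer^[n] g) ((11 / 12) ^ n * M) := by
  induction n with
  | zero => simpa using hg
  | succ n ih =>
    rw [Function.iterate_succ_apply', pow_succ', mul_assoc]
    exact isLip_transfer ih

theorem transfer_nonneg {g : ℝ → ℝ} (h0 : ∀ u, 0 ≤ g u) (x : ℝ) : 0 ≤ transfer g x :=
  tsum_nonneg fun k => mul_nonneg (branchWeight_nonneg k (clamp_mem x).1) (h0 _)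

theorem iterate_transfer_nonneg {g : ℝ → ℝ} (h0 : ∀ u, 0 ≤ g u) (n : ℕ) (x : ℝ) :
    0 ≤ transfer^[n] g x := by
  induction n generalizing x with
  | zero => exact h0 x
  | succ n ih => rw [Function.iterate_succ_apply']; exact transfer_nonneg ih x

theorem setLIntegral_gauss (h : ℝ → ℝ≥0∞) (hh : Measurable h) {S : Set ℝ} (hS : MeasurableSet S) :
    ∫⁻ x in S, h x ∂gaussMeasure =
      ∫⁻ x, ENNReal.ofReal (gaussDensity x) * S.indicator h x ∂DoeblinLenstra.unitVol := by
  rw [← lintegral_indicator hS, gaussMeasure,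
    lintegral_withDensity_eq_lintegral_mul _ (by unfold gaussDensity; fun_prop) (hh.indicator hS)]
  rfl

/-- **Duality with the Gauss map.** -/
theorem setLIntegral_transfer {g : ℝ → ℝ} {M : ℝ} (hg : IsLip g M) (h0 : ∀ u, 0 ≤ g u)
    {A : Set ℝ} (hA : MeasurableSet A) :
    ∫⁻ x in gaussMap ⁻¹' A, ENNReal.ofReal (g x) ∂gaussMeasure =
      ∫⁻ u in A, ENNReal.ofReal (transfer g u) ∂gaussMeasure := by
  rw [setLIntegral_gauss _ hg.continuous.measurable.ennreal_ofReal (measurable_gaussMap hA),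
    setLIntegral_gauss _ (isLip_transfer hg).continuous.measurable.ennreal_ofReal hA,
    DoeblinLenstra.lintegral_branches]
  have hterm : ∀ k : ℕ, AEMeasurable (fun u : ℝ => ENNReal.ofReal (1 / ((k : ℝ) + 1 + u) ^ 2) *
      (ENNReal.ofReal (gaussDensity (1 / ((k : ℝ) + 1 + u))) * (gaussMap ⁻¹' A).indicator
        (fun x => ENNReal.ofReal (g x)) (1 / ((k : ℝ) + 1 + u)))) DoeblinLenstra.unitVol :=
    fun k => by
      have hb : Measurable fun u : ℝ => 1 / ((k : ℝ) + 1 + u) := by fun_prop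
      refine (Measurable.mul (by fun_prop) (Measurable.mul
        ((by unfold gaussDensity; fun_prop : Measurable fun x => ENNReal.ofReal
          (gaussDensity x)).comp hb) ?_)).aemeasurable
      exact ((hg.continuous.measurable.ennreal_ofReal).indicator (measurable_gaussMap hA)).comp hb
  rw [← lintegral_tsum hterm]
  refine setLIntegral_congr_fun measurableSet_Ioo fun u hu => ?_
  by_cases hmem : u ∈ A
  · have hu' : u ∈ Icc (0 : ℝ) 1 := Ioo_subset_Icc_self hu
    rw [indicator_of_mem hmem, transfer, clamp_of_mem hu', ENNReal.ofReal_tsum_of_nonneg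
      (fun k => mul_nonneg (branchWeight_nonneg k hu'.1) (h0 _)) (summable_transfer hg hu'.1),
      ← ENNReal.tsum_mul_left]
    refine tsum_congr fun k => ?_
    have hm : 1 / ((k : ℝ) + 1 + u) ∈ gaussMap ⁻¹' A := by
      rw [mem_preimage, (DoeblinLenstra.branch_facts k hu).2.2]
      exact hmem
    have hl := log_pos one_lt_two
    have := hu.1
    rw [indicator_of_mem hm, ← mul_assoc, ← ENNReal.ofReal_mul (by positivity),
      ← ENNReal.ofReal_mul (by unfold gaussDensity; positivity),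
      ← ENNReal.ofReal_mul (by unfold gaussDensity; positivity), gaussDensity, gaussDensity,
      branchWeight]
    congr 1
    field_simp
    ring
  · rw [indicator_of_notMem hmem, mul_zero, ENNReal.tsum_eq_zero]
    intro k
    have hm : 1 / ((k : ℝ) + 1 + u) ∉ gaussMap ⁻¹' A := by
      rw [mem_preimage, (DoeblinLenstra.branch_facts k hu).2.2]
      exact hmem
    rw [indicator_of_notMem hm, mul_zero, mul_zero]

theorem setLIntegral_iterate {g : ℝ → ℝ} {M : ℝ} (hg : IsLip g M) (h0 : ∀ u, 0 ≤ g u)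
    {A : Set ℝ} (hA : MeasurableSet A) (n : ℕ) :
    ∫⁻ x in gaussMap^[n] ⁻¹' A, ENNReal.ofReal (g x) ∂gaussMeasure =
      ∫⁻ u in A, ENNReal.ofReal (transfer^[n] g u) ∂gaussMeasure := by
  induction n generalizing g M with
  | zero => rfl
  | succ n ih =>
    rw [Function.iterate_succ, preimage_comp,
      setLIntegral_transfer hg h0 (measurable_gaussMap.iterate n hA),
      ih (isLip_transfer hg) (transfer_nonneg h0)]
    rfl

theorem integrable_of_isLip {g : ℝ → ℝ} {M : ℝ} (hg : IsLip g M) : Integrable g gaussMeasure :=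
  Integrable.of_bound hg.continuous.aestronglyMeasurable (|g 0| + M)
    (ae_gaussMeasure_mem.mono fun _ hu => hg.bound (Ioo_subset_Icc_self hu))

theorem setIntegral_iterate {g : ℝ → ℝ} {M : ℝ} (hg : IsLip g M) (h0 : ∀ u, 0 ≤ g u)
    {A : Set ℝ} (hA : MeasurableSet A) (n : ℕ) :
    ∫ x in gaussMap^[n] ⁻¹' A, g x ∂gaussMeasure = ∫ u in A, transfer^[n] g u ∂gaussMeasure := by
  rw [integral_eq_lintegral_of_nonneg_ae (ae_of_all _ h0) hg.continuous.aestronglyMeasurable,
    integral_eq_lintegral_of_nonneg_ae (ae_of_all _ (iterate_transfer_nonneg h0 n))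
      (isLip_iterate hg n).continuous.aestronglyMeasurable, setLIntegral_iterate hg h0 hA n]

/-- **Geometric decay of correlations.** -/
theorem abs_setIntegral_sub_le {g : ℝ → ℝ} {M : ℝ} (hg : IsLip g M) (h0 : ∀ u, 0 ≤ g u)
    {A : Set ℝ} (hA : MeasurableSet A) (n : ℕ) :
    |(∫ x in gaussMap^[n] ⁻¹' A, g x ∂gaussMeasure) -
      gaussMeasure.real A * ∫ x, g x ∂gaussMeasure| ≤
        (11 / 12) ^ n * M * gaussMeasure.real A := by
  set h := transfer^[n] g with hh
  have hl := isLip_iterate hg n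
  have hmean : ∫ x, g x ∂gaussMeasure = ∫ u, h u ∂gaussMeasure := by
    have e := setIntegral_iterate hg h0 MeasurableSet.univ n
    rwa [preimage_univ, setIntegral_univ, setIntegral_univ] at e
  have hpt : ∀ᵐ u ∂gaussMeasure, ‖h u - ∫ t, h t ∂gaussMeasure‖ ≤ (11 / 12) ^ n * M := by
    filter_upwards [ae_gaussMeasure_mem] with u hu
    have e : h u - ∫ t, h t ∂gaussMeasure = ∫ t, (h u - h t) ∂gaussMeasure := by
      rw [integral_sub (integrable_const _) (integrable_of_isLip hl), integral_const,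
        probReal_univ, one_smul]
    rw [e]
    refine (norm_integral_le_of_norm_le_const (C := (11 / 12) ^ n * M) ?_).trans_eq
      (by rw [probReal_univ, mul_one])
    filter_upwards [ae_gaussMeasure_mem] with t ht
    refine (hl u t).trans (mul_le_of_le_one_right hl.nonneg ?_)
    exact abs_sub_le_iff.2 ⟨by linarith [hu.2, ht.1], by linarith [ht.2, hu.1]⟩
  rw [setIntegral_iterate hg h0 hA n, hmean]
  have e : (∫ u in A, h u ∂gaussMeasure) - gaussMeasure.real A * ∫ t, h t ∂gaussMeasure =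
      ∫ u in A, (h u - ∫ t, h t ∂gaussMeasure) ∂gaussMeasure := by
    rw [integral_sub (integrable_of_isLip hl).integrableOn (integrable_const _),
      setIntegral_const, smul_eq_mul]
  rw [e, ← Real.norm_eq_abs]
  exact norm_setIntegral_le_of_norm_le_const_ae (measure_lt_top _ _)
    (ae_restrict_of_ae hpt)

end FA.GaussKuzmin
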